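/-
S55 / layer G / block CM, leaf GCL (helper893): the Galois-closure level.

`closureLevel : ClosureLevelSpec`: for a finite group `G` acting faithfully on a number field `L`
there are `S' ⊇ S`, a Tower level `M` of `S'`, a subgroup `Γ' ≤ Gal(M/ℚ)`, a surjection
`π : Γ' ↠ G` and an embedding `φ : L → M`, equivariant along `π`, with image the fixed field of
`ker π`.

Construction: `ψ : L → ℚ̄` any embedding, `M ⊇ ψ(L)` finite Galois over `ℚ`, unramified outside
`S' ⊇ S` (`Bridge.exists_galois_ge_isUnramifiedOutside`);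
`Γ' := {q ∈ Gal(M/ℚ) | ∃ g ∈ G, ∀ x, q • φ x = φ (g • x)}`, `π q :=` this (unique) `g`.
-/
import Fermat.Agent.S55.G.CM.Spec
import Fermat.Agent.S55.Bridge.FiniteRam

set_option autoImplicit false
set_option linter.unusedSectionVars false
set_option linter.style.haveILetI false

open CategoryTheory
open scoped NumberField

noncomputable section

namespace Fermat.Agent.S55.G.CM.H893

open Fermat.Agent.S55 Fermat.Agent.S55.Tow Fermat.Agent.S55.E1.H594 Fermat.Agent.S55.G
open Fermat.Agent.S55.Bridge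

attribute [local instance] isAlgebraic_Qbar isGalois_Qbar

section Ext

variable (G L : Type) [Group G] [Field L] [NumberField L] [MulSemiringAction G L]

/-- Every element of `G` is induced, through an embedding `ψ : L → ℚ̄`, by an automorphism of
`ℚ̄`. -/
theorem exists_aut_extending (ψ : L →ₐ[ℚ] Qbar) (g : G) :
    ∃ σ : GQ, ∀ x : L, σ (ψ x) = ψ (g • x) := by
  let e : L ≃ₐ[ℚ] ψ.fieldRange := AlgEquiv.ofInjectiveField ψ
  let χ : ψ.fieldRange ≃ₐ[ℚ] ψ.fieldRange := (e.symm.trans (fieldAut G L g)).trans e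
  refine ⟨χ.liftNormal Qbar, fun x => ?_⟩
  have h1 := AlgEquiv.liftNormal_commutes χ Qbar (e x)
  have h2 : algebraMap ψ.fieldRange Qbar (e x) = ψ x := rfl
  have h3 : χ (e x) = e (g • x) := by
    show e (fieldAut G L g (e.symm (e x))) = e (g • x)
    rw [AlgEquiv.symm_apply_apply, fieldAut_apply]
  rw [h2, h3] at h1
  exact h1

end Ext

section Main

variable (S : Finset Nat.Primes) (G L : Type) [Group G] [Finite G] [Field L] [NumberField L]
  [MulSemiringAction G L] [FaithfulSMul G L]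

variable {S' : Finset Nat.Primes} (M : Level S') (φ : L →+* M.F)

/-- The subgroup of `Gal(M/ℚ)` of the elements acting on `φ(L)` through `G`. -/
def gammaSub : Subgroup M.Gal where
  carrier := {q | ∃ g : G, ∀ x : L, q • φ x = φ (g • x)}
  one_mem' := ⟨1, fun x => by rw [one_smul, one_smul]⟩
  mul_mem' := by
    rintro a b ⟨g, hg⟩ ⟨h, hh⟩
    exact ⟨g * h, fun x => by rw [mul_smul, hh, hg, mul_smul]⟩
  inv_mem' := by
    rintro a ⟨g, hg⟩
    refine ⟨g⁻¹, fun x => ?_⟩
    have := hg (g⁻¹ • x)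
    rw [smul_inv_smul] at this
    rw [← this, inv_smul_smul]

variable {G L M φ} in
theorem eq_of_forall_smul {g h : G} (hgh : ∀ x : L, φ (g • x) = φ (h • x)) : g = h :=
  FaithfulSMul.eq_of_smul_eq_smul (α := L) fun x => φ.injective (hgh x)

/-- The element of `G` through which `q ∈ Γ'` acts. -/
def piFun (q : gammaSub G L M φ) : G := q.2.choose

theorem piFun_spec (q : gammaSub G L M φ) (x : L) :
    (q : M.Gal) • φ x = φ (piFun G L M φ q • x) := q.2.choose_spec x

theorem piFun_eq (q : gammaSub G L M φ) (g : G) (h : ∀ x : L, (q : M.Gal) • φ x = φ (g • x)) :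
    piFun G L M φ q = g :=
  eq_of_forall_smul fun x => by rw [← piFun_spec, h]

/-- The homomorphism `π : Γ' → G`. -/
def piHom : gammaSub G L M φ →* G where
  toFun := piFun G L M φ
  map_one' := piFun_eq G L M φ 1 1 fun x => by
    rw [one_smul]; exact one_smul M.Gal (φ x)
  map_mul' a b := piFun_eq G L M φ (a * b) _ fun x => by
    rw [mul_smul, ← piFun_spec, ← piFun_spec]
    exact mul_smul (a : M.Gal) (b : M.Gal) (φ x)

theorem piHom_spec (q : gammaSub G L M φ) (x : L) :
    φ (piHom G L M φ q • x) = q • φ x := (piFun_spec G L M φ q x).symm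

end Main

section Core

variable (G L : Type) [Group G] [Finite G] [Field L] [NumberField L]
  [MulSemiringAction G L] [FaithfulSMul G L]
variable {S' : Finset Nat.Primes} (M : Level S') (ψ : L →ₐ[ℚ] Qbar) (hle : ∀ x : L, ψ x ∈ M.F)

/-- The embedding `L → M.F` induced by `ψ`. -/
def phiHom : L →+* M.F where
  toFun := fun x => ⟨ψ x, hle x⟩
  map_one' := Subtype.ext (map_one ψ)
  map_mul' := fun x y => Subtype.ext (map_mul ψ x y)
  map_zero' := Subtype.ext (map_zero ψ)
  map_add' := fun x y => Subtype.ext (map_add ψ x y)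

theorem coe_phiHom (x : L) : ((phiHom L M ψ hle x : M.F) : Qbar) = ψ x := rfl

theorem mk_smul_phiHom (σ : GQ) (x : L) :
    (((QuotientGroup.mk σ : M.Gal) • phiHom L M ψ hle x : M.F) : Qbar) = σ (ψ x) :=
  level_mk_smul M σ (phiHom L M ψ hle x)

theorem mk_mem_gammaSub (σ : GQ) (g : G) (hσ : ∀ x : L, σ (ψ x) = ψ (g • x)) :
    (QuotientGroup.mk σ : M.Gal) ∈ gammaSub G L M (phiHom L M ψ hle) :=
  ⟨g, fun x => Subtype.ext (by rw [mk_smul_phiHom, coe_phiHom, hσ])⟩

theorem piHom_mk (σ : GQ) (g : G) (hσ : ∀ x : L, σ (ψ x) = ψ (g • x)) :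
    piHom G L M (phiHom L M ψ hle) ⟨_, mk_mem_gammaSub G L M ψ hle σ g hσ⟩ = g :=
  piFun_eq G L M _ _ g fun x => Subtype.ext (by
    show (((QuotientGroup.mk σ : M.Gal) • phiHom L M ψ hle x : M.F) : Qbar) = _
    rw [mk_smul_phiHom, coe_phiHom, hσ])

theorem piHom_surjective : Function.Surjective (piHom G L M (phiHom L M ψ hle)) := by
  intro g
  obtain ⟨σ, hσ⟩ := exists_aut_extending G L ψ g
  exact ⟨⟨_, mk_mem_gammaSub G L M ψ hle σ g hσ⟩, piHom_mk G L M ψ hle σ g hσ⟩

theorem mem_range_phiHom (y : M.F)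
    (hy : ∀ n : gammaSub G L M (phiHom L M ψ hle),
      piHom G L M (phiHom L M ψ hle) n = 1 → n • y = y) :
    y ∈ Set.range (phiHom L M ψ hle) := by
  have hyF : (y : Qbar) ∈ ψ.fieldRange := by
    rw [← InfiniteGalois.fixedField_fixingSubgroup ψ.fieldRange,
      IntermediateField.mem_fixedField_iff]
    intro σ hσ
    have hσ' : ∀ x : L, σ (ψ x) = ψ ((1 : G) • x) := fun x => by
      rw [one_smul]
      exact (IntermediateField.mem_fixingSubgroup_iff ψ.fieldRange σ).1 hσ _ ⟨x, rfl⟩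
    have h1 := hy ⟨_, mk_mem_gammaSub G L M ψ hle σ 1 hσ'⟩ (piHom_mk G L M ψ hle σ 1 hσ')
    have h2 := congrArg (fun t : M.F => (t : Qbar)) h1
    have h3 : (((QuotientGroup.mk σ : M.Gal) • y : M.F) : Qbar) = σ (y : Qbar) :=
      level_mk_smul M σ y
    exact h3.symm.trans h2
  obtain ⟨x, hx⟩ := hyF
  exact ⟨x, Subtype.ext hx⟩

end Core

/-- **G-CM:GCL.** -/
theorem closureLevel : ClosureLevelSpec := by
  intro S G L _ _ _ _ _ _
  -- an embedding of `L` in `ℚ̄`
  haveI : Algebra.IsAlgebraic ℚ L := Algebra.IsAlgebraic.of_finite ℚ L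
  let ψ : L →ₐ[ℚ] Qbar := IsAlgClosed.lift
  have hF₀ : FiniteDimensional ℚ ψ.fieldRange :=
    (AlgEquiv.ofInjectiveField ψ).toLinearEquiv.finiteDimensional
  obtain ⟨S', M₀, hSS', hunr, hgal, hle⟩ :=
    exists_galois_ge_isUnramifiedOutside S ψ.fieldRange hF₀
  obtain ⟨M, hM⟩ : ∃ M : Level S', M.F = M₀ :=
    ⟨⟨M₀, hunr, (InfiniteGalois.normal_iff_isGalois M₀).2 hgal⟩, rfl⟩
  have hle' : ∀ x : L, ψ x ∈ M.F := fun x => hM ▸ hle ⟨x, rfl⟩
  exact ⟨S', hSS', M, gammaSub G L M (phiHom L M ψ hle'), piHom G L M (phiHom L M ψ hle'),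
    phiHom L M ψ hle', piHom_surjective G L M ψ hle', piHom_spec G L M _,
    mem_range_phiHom G L M ψ hle'⟩

end Fermat.Agent.S55.G.CM.H893
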